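import Mathlib.Analysis.Complex.Basic
import Mathlib.Analysis.ODE.ExistUnique
import Mathlib.Analysis.Calculus.MeanValue

/-!
# The flow of a bounded Lipschitz field

Such a field has exactly one solution through every point, defined for all times; these form a
group and depend continuously on the point.
-/

set_option autoImplicit false

noncomputable section

namespace FA.PoincareBendixson

open Set Metric Filter Topology
open scoped NNReal

variable {E : Type*} [NormedAddCommGroup E] [NormedSpace ℝ E]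

/-- A bounded Lipschitz field. -/
structure Field (E : Type*) [NormedAddCommGroup E] where
  /-- The field. -/
  g : E → E
  /-- The Lipschitz constant. -/
  K : ℝ≥0
  /-- The bound. -/
  M : ℝ≥0
  lip : LipschitzWith K g
  bound : ∀ z, ‖g z‖ ≤ M

variable (F : Field E)

/-- The reversed field. -/
def Field.rev : Field E where
  g z := -F.g z
  K := F.K
  M := F.M
  lip := F.lip.neg
  bound z := by simpa using F.bound z

theorem solution_unique {y z : ℝ → E} (hy : ∀ t, HasDerivAt y (F.g (y t)) t)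
    (hz : ∀ t, HasDerivAt z (F.g (z t)) t) {t₀ : ℝ} (h : y t₀ = z t₀) : y = z :=
  ODE_solution_unique_univ (v := fun _ => F.g) (s := fun _ => univ)
    (fun _ => F.lip.lipschitzOnWith) (fun t => ⟨hy t, trivial⟩) (fun t => ⟨hz t, trivial⟩) h

variable [CompleteSpace E]

theorem exists_solution_Icc (p : E) (n : ℕ) :
    ∃ y : ℝ → E, y 0 = p ∧
      ∀ t ∈ Ioo (-(n : ℝ) - 1) (n + 1), HasDerivAt y (F.g (y t)) t := by
  have h0 : (0 : ℝ) ∈ Icc (-(n : ℝ) - 1) (n + 1) :=
    ⟨by linarith [n.cast_nonneg (α := ℝ)], by positivity⟩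
  have hP : IsPicardLindelof (fun _ => F.g) (⟨0, h0⟩ : Icc (-(n : ℝ) - 1) (n + 1)) p
      (F.M * (n + 1)) 0 F.M F.K :=
    { lipschitzOnWith := fun _ _ => F.lip.lipschitzOnWith
      continuousOn := fun _ _ => continuousOn_const
      norm_le := fun _ _ z _ => F.bound z
      mul_max_le := by
        push_cast
        rw [sub_zero, show (0 : ℝ) - (-(n : ℝ) - 1) = n + 1 by ring, max_self, sub_zero] }
  obtain ⟨y, hy0, hy⟩ := hP.exists_eq_forall_mem_Icc_hasDerivWithinAt₀
  exact ⟨y, hy0, fun t ht =>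
    (hy t (Ioo_subset_Icc_self ht)).hasDerivAt (Icc_mem_nhds ht.1 ht.2)⟩

theorem exists_solution (p : E) : ∃ y : ℝ → E, y 0 = p ∧ ∀ t, HasDerivAt y (F.g (y t)) t := by
  choose y hy0 hy using exists_solution_Icc F p
  have key : ∀ m n : ℕ, m ≤ n → EqOn (y m) (y n) (Ioo (-(m : ℝ) - 1) (m + 1)) := fun m n hmn =>
    ODE_solution_unique_of_mem_Ioo (v := fun _ => F.g) (s := fun _ => univ)
      (fun _ _ => F.lip.lipschitzOnWith)
      (show (0 : ℝ) ∈ Ioo _ _ from ⟨by linarith [m.cast_nonneg (α := ℝ)], by positivity⟩)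
      (fun t ht => ⟨hy m t ht, trivial⟩)
      (fun t ht => ⟨hy n t ⟨by linarith [ht.1, (Nat.cast_le (α := ℝ)).2 hmn],
        by linarith [ht.2, (Nat.cast_le (α := ℝ)).2 hmn]⟩, trivial⟩)
      ((hy0 m).trans (hy0 n).symm)
  refine ⟨fun t => y ⌈|t|⌉₊ t, by simpa using hy0 0, fun t => ?_⟩
  set N := ⌈|t|⌉₊ + 1
  have hmem : ∀ᶠ s in 𝓝 t, ⌈|s|⌉₊ ≤ N := by
    filter_upwards [continuous_abs.continuousAt.eventually_lt continuousAt_const
      (show |t| < (N : ℝ) by simp only [N]; push_cast; linarith [Nat.le_ceil |t|])] with s hs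
    exact Nat.ceil_le.2 hs.le
  have hin : ∀ s : ℝ, s ∈ Ioo (-(⌈|s|⌉₊ : ℝ) - 1) (⌈|s|⌉₊ + 1) := fun s => by
    have := Nat.le_ceil |s|
    constructor <;> linarith [le_abs_self s, neg_abs_le s]
  have e : (fun s => y ⌈|s|⌉₊ s) =ᶠ[𝓝 t] y N := hmem.mono fun s hs => key _ _ hs (hin s)
  have eat : y ⌈|t|⌉₊ t = y N t := e.eq_of_nhds
  show HasDerivAt _ (F.g (y ⌈|t|⌉₊ t)) t
  rw [eat]
  refine HasDerivAt.congr_of_eventuallyEq (hy N t ?_) e
  simp only [N]
  push_cast
  constructor <;> linarith [(hin t).1, (hin t).2]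

/-- The flow. -/
def flow (p : E) : ℝ → E := (exists_solution F p).choose

theorem flow_zero (p : E) : flow F p 0 = p := (exists_solution F p).choose_spec.1

theorem hasDerivAt_flow (p : E) (t : ℝ) : HasDerivAt (flow F p) (F.g (flow F p t)) t :=
  (exists_solution F p).choose_spec.2 t

theorem continuous_flow (p : E) : Continuous (flow F p) :=
  continuous_iff_continuousAt.2 fun t => (hasDerivAt_flow F p t).continuousAt

theorem flow_add (p : E) (s t : ℝ) : flow F (flow F p s) t = flow F p (s + t) :=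
  congrFun (solution_unique F (hasDerivAt_flow F (flow F p s))
    (fun u => (hasDerivAt_flow F p (s + u)).comp_const_add s u) (t₀ := 0)
    (by rw [flow_zero, add_zero])) t

theorem norm_flow_sub_le (p : E) (t : ℝ) : ‖flow F p t - p‖ ≤ F.M * |t| := by
  have := Convex.norm_image_sub_le_of_norm_hasDerivWithin_le (s := univ) (f := flow F p)
    (fun u _ => (hasDerivAt_flow F p u).hasDerivWithinAt) (fun u _ => F.bound _) convex_univ
    (mem_univ 0) (mem_univ t)
  rwa [flow_zero, sub_zero, Real.norm_eq_abs] at this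

theorem dist_flow_le (p q : E) {t : ℝ} (ht : 0 ≤ t) :
    dist (flow F p t) (flow F q t) ≤ dist p q * Real.exp (F.K * t) := by
  have := dist_le_of_trajectories_ODE (v := fun _ => F.g) (fun _ => F.lip)
    (continuous_flow F p).continuousOn (fun u _ => (hasDerivAt_flow F p u).hasDerivWithinAt)
    (continuous_flow F q).continuousOn (fun u _ => (hasDerivAt_flow F q u).hasDerivWithinAt)
    (δ := dist p q) (a := 0) (b := t) (by rw [flow_zero, flow_zero]) t ⟨ht, le_rfl⟩
  rwa [sub_zero] at this

theorem flow_rev (p : E) (t : ℝ) : flow F.rev p t = flow F p (-t) := by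
  refine congrFun (solution_unique F.rev (hasDerivAt_flow F.rev p) (fun u => ?_) (t₀ := 0)
    (z := fun u => flow F p (-u)) (by simp [flow_zero])) t
  simpa [Field.rev, Function.comp_def] using
    (hasDerivAt_flow F p (-u)).scomp u (hasDerivAt_neg u)

theorem continuous_flow_at (t : ℝ) : Continuous fun p => flow F p t := by
  have key : ∀ (G : Field E) (s : ℝ), 0 ≤ s → Continuous fun p => flow G p s := fun G s hs =>
    (LipschitzWith.of_dist_le_mul (K := Real.toNNReal (Real.exp (G.K * s))) fun p q => by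
      rw [Real.coe_toNNReal _ (Real.exp_pos _).le, mul_comm]
      exact dist_flow_le G p q hs).continuous
  rcases le_total 0 t with h | h
  · exact key F t h
  · have := key F.rev (-t) (neg_nonneg.2 h)
    simpa only [flow_rev, neg_neg] using this

theorem eq_flow_of_forward {x : ℝ → E}
    (hx : ∀ t, 0 ≤ t → HasDerivWithinAt x (F.g (x t)) (Ici 0) t) {t : ℝ} (ht : 0 ≤ t) :
    x t = flow F (x 0) t :=
  ODE_solution_unique (v := fun _ => F.g) (fun _ => F.lip)
    (fun u hu => ((hx u hu.1).continuousWithinAt).mono fun _ hw => hw.1)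
    (fun u hu => (hx u hu.1).mono (Ici_subset_Ici.2 hu.1))
    (continuous_flow F _).continuousOn (fun u _ => (hasDerivAt_flow F _ u).hasDerivWithinAt)
    (flow_zero F _).symm ⟨ht, le_rfl⟩

end FA.PoincareBendixson
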