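import Fermat.Agent.PoincareBendixson.Monotone
import Fermat.Agent.PoincareBendixson.Flow
import Fermat.Agent.HartmanGrobman.Theorems

/-!
# The theorem of Poincaré and Bendixson

Seen from a regular point the field crosses a short transversal from left to right, so a trajectory
that is not periodic has at most one limit point on it.  Hence a trajectory inside the limit set
closes up, and nothing of the limit set lies off the closed orbit.
-/

set_option autoImplicit false

noncomputable section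

namespace FA.PoincareBendixson

open Set Metric Filter Topology Complex
open scoped NNReal

/-- The limit set of a curve for large times. -/
def omegaSet {E : Type*} [TopologicalSpace E] (x : ℝ → E) : Set E :=
  ⋂ T : ℝ, closure (x '' Ici T)

/-- The coordinate along and across the field at `q`. -/
def coord (q v : ℂ) (z : ℂ) : ℂ := (z - q) / v

theorem norm_sub_eq {q v : ℂ} (hv : v ≠ 0) (z : ℂ) : ‖z - q‖ = ‖coord q v z‖ * ‖v‖ := by
  rw [← norm_mul, coord, div_mul_cancel₀ _ hv]

theorem coord_inj {q v : ℂ} (hv : v ≠ 0) : Function.Injective (coord q v) := fun a b h => by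
  simpa [coord, hv] using h

variable (F : Field ℂ)

theorem flow_mem_omegaSet {p z : ℂ} (hz : z ∈ omegaSet (flow F p)) (t : ℝ) :
    flow F z t ∈ omegaSet (flow F p) := by
  refine mem_iInter.2 fun T => ?_
  have := image_closure_subset_closure_image (continuous_flow_at F t)
    (mem_image_of_mem _ (mem_iInter.1 hz (T - t)))
  refine closure_mono ?_ this
  rintro _ ⟨_, ⟨s, hs, rfl⟩, rfl⟩
  exact ⟨s + t, by rw [mem_Ici] at hs ⊢; linarith, (flow_add F p s t).symm⟩

theorem exists_time {x : ℝ → ℂ} {z : ℂ} (hz : z ∈ omegaSet x) (T : ℝ) {η : ℝ} (hη : 0 < η) :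
    ∃ t, T ≤ t ∧ dist (x t) z < η := by
  obtain ⟨_, ⟨t, ht, rfl⟩, hd⟩ := Metric.mem_closure_iff.1 (mem_iInter.1 hz T) η hη
  exact ⟨t, ht, by rwa [dist_comm]⟩

theorem exists_cluster {x : ℝ → ℂ} {R : ℝ} (hb : ∀ t, 0 ≤ t → ‖x t‖ ≤ R) {u : ℕ → ℝ}
    (hu : ∀ n : ℕ, (n : ℝ) ≤ u n) :
    ∃ a ∈ omegaSet x, ∃ φ : ℕ → ℕ, StrictMono φ ∧ Tendsto (fun n => x (u (φ n))) atTop (𝓝 a) := by
  obtain ⟨a, -, φ, hφ, hlim⟩ := (isCompact_closedBall (0 : ℂ) R).tendsto_subseq
    (x := fun n => x (u n)) fun n => by simpa using hb _ (n.cast_nonneg.trans (hu n))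
  refine ⟨a, mem_iInter.2 fun T => mem_closure_of_tendsto hlim ?_, φ, hφ, hlim⟩
  filter_upwards [hφ.tendsto_atTop.eventually_ge_atTop ⌈T⌉₊] with n hn
  exact ⟨_, (Nat.le_ceil T).trans ((Nat.cast_le.2 hn).trans (hu _)), rfl⟩

theorem omegaSet_subset_ball {x : ℝ → ℂ} {R : ℝ} (hb : ∀ t, 0 ≤ t → ‖x t‖ ≤ R) :
    omegaSet x ⊆ closedBall 0 R := fun _ hz => closure_minimal
  (by rintro _ ⟨t, ht, rfl⟩; simpa using hb t ht) isClosed_closedBall (mem_iInter.1 hz 0)

/-- **The transversal at a regular point.** -/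
theorem exists_transversal {q : ℂ} (hq : F.g q ≠ 0) :
    ∃ ε > 0, (∀ p, CrossesRight (fun t => coord q (F.g q) (flow F p t)) ε) ∧
      ∀ z, (coord q (F.g q) z).re = 0 → |(coord q (F.g q) z).im| < ε → ∀ η > 0, ∃ ρ > 0, ∀ w,
        dist w z < ρ → ∃ t, |t| ≤ η ∧ (coord q (F.g q) (flow F w t)).re = 0 ∧
          |(coord q (F.g q) (flow F w t)).im| ≤ ε ∧ dist (flow F w t) z < η := by
  set v := F.g q
  have hv : 0 < ‖v‖ := norm_pos_iff.2 hq
  have hcont : Continuous fun z => (F.g z / v).re :=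
    continuous_re.comp (F.lip.continuous.div_const v)
  obtain ⟨r, hr, hrv⟩ := Metric.eventually_nhds_iff.1
    (continuousAt_const.eventually_lt hcont.continuousAt (x₀ := q) (f := fun _ => (1 / 2 : ℝ))
      (by simp [v, hq]; norm_num))
  refine ⟨r / (2 * ‖v‖), by positivity, fun p t ht => ?_, fun z hz0 hzε η hη => ?_⟩
  · have hd : HasDerivAt (fun s => (coord q v (flow F p s)).re) ((F.g (flow F p t) / v).re) t :=
      (Complex.reCLM.hasFDerivAt.comp_hasDerivAt t
        (((hasDerivAt_flow F p t).sub_const q).div_const v))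
    have hpos : 1 / 2 < (F.g (flow F p t) / v).re := hrv (by
      rw [dist_eq_norm, norm_sub_eq hq, ← lt_div_iff₀ hv]
      refine lt_of_le_of_lt ((Complex.norm_le_abs_re_add_abs_im _).trans ?_)
        (show r / (2 * ‖v‖) < r / ‖v‖ by
          rw [div_lt_div_iff_of_pos_left hr (by positivity) hv]; linarith)
      have h1 : (coord q v (flow F p t)).re = 0 := ht.2.1
      rw [h1, abs_zero, zero_add]
      exact ht.2.2)
    have hs := (hasDerivAt_iff_tendsto_slope.1 hd).eventually_const_lt hpos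
    rw [eventually_nhdsWithin_iff] at hs
    filter_upwards [hs] with s hs
    have h1 : (coord q v (flow F p t)).re = 0 := ht.2.1
    refine ⟨fun h => ?_, fun h => ?_⟩
    · have := hs h.ne
      rw [slope_def_field, h1, sub_zero, lt_div_iff_of_neg (sub_neg.2 h)] at this
      show (coord q v (flow F p s)).re < 0
      linarith
    · have := hs h.ne'
      rw [slope_def_field, h1, sub_zero, lt_div_iff₀ (sub_pos.2 h)] at this
      show 0 < (coord q v (flow F p s)).re
      linarith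
  · have hzr : dist z q < r / 2 := by
      rw [dist_eq_norm, norm_sub_eq hq, ← lt_div_iff₀ hv, div_div]
      refine lt_of_le_of_lt (Complex.norm_le_abs_re_add_abs_im _) ?_
      rwa [hz0, abs_zero, zero_add]
    set κ := min (min η (r / 2)) ((r / (2 * ‖v‖) - |(coord q v z).im|) * ‖v‖)
    have hκ : 0 < κ := lt_min (lt_min hη (half_pos hr)) (mul_pos (sub_pos.2 hzε) hv)
    set τ := κ / (2 * ((F.M : ℝ) + 1))
    have hτ : 0 < τ := by positivity
    have hτκ : ((F.M : ℝ) + 1) * τ < κ := by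
      rw [show ((F.M : ℝ) + 1) * τ = κ / 2 by simp only [τ]; field_simp]
      exact half_lt_self hκ
    have hτball : ((F.M : ℝ) + 1) * τ < r / 2 :=
      hτκ.trans_le ((min_le_left _ _).trans (min_le_right _ _))
    have hτη : τ < η := lt_of_le_of_lt (le_mul_of_one_le_left hτ.le (by simp))
      (hτκ.trans_le ((min_le_left _ _).trans (min_le_left _ _)))
    have hτε : ((F.M : ℝ) + 1) * τ / ‖v‖ < r / (2 * ‖v‖) - |(coord q v z).im| :=
      (div_lt_iff₀ hv).2 (hτκ.trans_le (min_le_right _ _))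
    refine ⟨min (τ * ‖v‖ / 2) τ, lt_min (by positivity) hτ, fun w hw => ?_⟩
    have hw1 : dist w z < τ * ‖v‖ / 2 := hw.trans_le (min_le_left _ _)
    have hw2 : dist w z < τ := hw.trans_le (min_le_right _ _)
    have hnear : ∀ s, |s| ≤ τ → dist (flow F w s) z ≤ (F.M + 1) * τ := fun s hs => by
      refine (dist_triangle _ w _).trans ?_
      have h1 := norm_flow_sub_le F w s
      have h2 := mul_le_mul_of_nonneg_left hs F.M.coe_nonneg
      rw [dist_eq_norm]
      linarith
    set h : ℝ → ℝ := fun s => (coord q v (flow F w s)).re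
    have hh : ∀ s, HasDerivAt h ((F.g (flow F w s) / v).re) s := fun s =>
      Complex.reCLM.hasFDerivAt.comp_hasDerivAt s
        (((hasDerivAt_flow F w s).sub_const q).div_const v)
    have hgrow : ∀ a ∈ Icc (-τ) τ, ∀ b ∈ Icc (-τ) τ, a ≤ b → 1 / 2 * (b - a) ≤ h b - h a :=
      Convex.mul_sub_le_image_sub_of_le_deriv (convex_Icc _ _)
        (fun s _ => (hh s).continuousAt.continuousWithinAt)
        (fun s _ => (hh s).differentiableAt.differentiableWithinAt) fun s hs => by
          rw [(hh s).deriv]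
          refine (hrv (lt_of_le_of_lt (dist_triangle _ z _) ?_)).le
          have := hnear s (abs_le.2 (Ioo_subset_Icc_self (interior_Icc.subset hs)))
          linarith
    have h0 : |h 0| ≤ τ / 2 := by
      have h1 : |h 0| ≤ ‖coord q v w - coord q v z‖ := by
        refine le_trans (le_of_eq ?_) (Complex.abs_re_le_norm _)
        simp [h, flow_zero, hz0]
      refine h1.trans ?_
      rw [show coord q v w - coord q v z = (w - z) / v by simp only [coord]; ring, norm_div,
        ← dist_eq_norm, div_le_iff₀ hv]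
      linarith
    have hlo := hgrow (-τ) ⟨le_rfl, by linarith⟩ 0 ⟨by linarith, hτ.le⟩ (by linarith)
    have hhi := hgrow 0 ⟨by linarith, hτ.le⟩ τ ⟨by linarith, le_rfl⟩ hτ.le
    rw [abs_le] at h0
    obtain ⟨s, hs, hs0⟩ := intermediate_value_Icc (show -τ ≤ τ by linarith)
      (fun u _ => (hh u).continuousAt.continuousWithinAt)
      (show (0 : ℝ) ∈ Icc (h (-τ)) (h τ) from ⟨by linarith, by linarith⟩)
    have hsz := hnear s (abs_le.2 hs)
    refine ⟨s, (abs_le.2 hs).trans hτη.le, hs0, ?_,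
      lt_of_le_of_lt hsz (hτκ.trans_le ((min_le_left _ _).trans (min_le_left _ _)))⟩
    have h1 : |(coord q v (flow F w s)).im - (coord q v z).im| ≤ (F.M + 1) * τ / ‖v‖ := by
      rw [← Complex.sub_im]
      refine (Complex.abs_im_le_norm _).trans ?_
      rw [show coord q v (flow F w s) - coord q v z = (flow F w s - z) / v by
        simp only [coord]; ring, norm_div, ← dist_eq_norm]
      exact (div_le_div_iff_of_pos_right hv).2 hsz
    have h2 := abs_sub_abs_le_abs_sub (coord q v (flow F w s)).im (coord q v z).im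
    linarith

variable {F} {p₀ : ℂ}

/-- **A trajectory has at most one limit point on a transversal.** -/
theorem eq_of_mem_transversal (hi : InjOn (flow F p₀) (Ici 0)) {q : ℂ} (hq : F.g q ≠ 0) {ε : ℝ}
    (hcross : CrossesRight (fun t => coord q (F.g q) (flow F p₀ t)) ε)
    (hbox : ∀ z, (coord q (F.g q) z).re = 0 → |(coord q (F.g q) z).im| < ε → ∀ η > 0, ∃ ρ > 0,
      ∀ w, dist w z < ρ → ∃ t, |t| ≤ η ∧ (coord q (F.g q) (flow F w t)).re = 0 ∧
        |(coord q (F.g q) (flow F w t)).im| ≤ ε ∧ dist (flow F w t) z < η)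
    {a b : ℂ} (ha : a ∈ omegaSet (flow F p₀)) (hb : b ∈ omegaSet (flow F p₀))
    (ha0 : (coord q (F.g q) a).re = 0) (haε : |(coord q (F.g q) a).im| < ε)
    (hb0 : (coord q (F.g q) b).re = 0) (hbε : |(coord q (F.g q) b).im| < ε) : a = b := by
  set c := fun z => coord q (F.g q) z
  refine coord_inj hq (Complex.ext (ha0.trans hb0.symm) ?_)
  by_contra hne
  wlog hlt : (c a).im < (c b).im generalizing a b with H
  · exact H hb ha hb0 hbε ha0 haε (Ne.symm hne) ((Ne.lt_or_gt hne).resolve_left hlt)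
  set m := ((c a).im + (c b).im) / 2
  set d := ((c b).im - (c a).im) / 2
  have hd : 0 < d := by simp only [d]; linarith
  have hv : 0 < ‖F.g q‖ := norm_pos_iff.2 hq
  -- crossings as late as we like, near either point
  have hnear : ∀ z, (c z).re = 0 → |(c z).im| < ε → z ∈ omegaSet (flow F p₀) → ∀ T : ℝ,
      ∃ t, T < t ∧ t ∈ crossings (fun t => c (flow F p₀ t)) ε ∧
        |(c (flow F p₀ t)).im - (c z).im| < d := by
    intro z hz0 hzε hzω T
    obtain ⟨ρ, hρ, hw⟩ := hbox z hz0 hzε (min 1 (d * ‖F.g q‖)) (lt_min one_pos (by positivity))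
    obtain ⟨s, hs, hsz⟩ := exists_time hzω (max T 0 + 2) hρ
    obtain ⟨t, ht, h0, hε, hd'⟩ := hw _ hsz
    rw [flow_add] at h0 hε hd'
    have ht1 : |t| ≤ 1 := ht.trans (min_le_left _ _)
    rw [abs_le] at ht1
    refine ⟨s + t, by linarith [le_max_left T 0], ⟨by linarith [le_max_right T 0], h0, hε⟩, ?_⟩
    rw [← Complex.sub_im]
    refine lt_of_le_of_lt (Complex.abs_im_le_norm _) ?_
    rw [show c (flow F p₀ (s + t)) - c z = (flow F p₀ (s + t) - z) / F.g q by
      simp only [c, coord]; ring, norm_div, ← dist_eq_norm, div_lt_iff₀ hv]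
    exact hd'.trans_le (min_le_right _ _)
  obtain ⟨t₁, -, h₁, e₁⟩ := hnear a ha0 haε ha 0
  obtain ⟨t₂, h12, h₂, e₂⟩ := hnear b hb0 hbε hb t₁
  obtain ⟨t₃, h23, h₃, e₃⟩ := hnear a ha0 haε ha t₂
  rw [abs_lt] at e₁ e₂ e₃
  have := im_lt_of_lt (x := fun t => c (flow F p₀ t))
    ((((continuous_flow F p₀).sub continuous_const).div_const _).continuousOn)
    (fun s hs t ht e => hi hs ht (coord_inj hq e)) hcross h₁ h₂ h₃ h12 h23
    (by simp only [d] at e₁ e₂; linarith)
  simp only [d] at e₁ e₂ e₃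
  linarith

/-- **The theorem of Poincaré and Bendixson** for a bounded Lipschitz field. -/
theorem exists_periodic {R : ℝ} (hb : ∀ t, 0 ≤ t → ‖flow F p₀ t‖ ≤ R)
    (hω : ∀ z ∈ omegaSet (flow F p₀), F.g z ≠ 0) :
    ∃ p P, 0 < P ∧ Function.Periodic (flow F p) P ∧ range (flow F p) = omegaSet (flow F p₀) := by
  by_cases hi : InjOn (flow F p₀) (Ici 0)
  swap
  · -- a periodic trajectory
    simp only [InjOn, not_forall] at hi
    obtain ⟨a, -, b, -, hab, hne⟩ := hi
    wlog hlt : a < b generalizing a b with H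
    · exact H b a hab.symm (Ne.symm hne) ((Ne.lt_or_gt hne).resolve_left hlt)
    have hper : Function.Periodic (flow F p₀) (b - a) := fun t => by
      rw [show t + (b - a) = b + (t - a) by ring, ← flow_add, ← hab, flow_add, add_sub_cancel]
    refine ⟨p₀, b - a, sub_pos.2 hlt, hper, Subset.antisymm ?_ ?_⟩
    · rintro _ ⟨t, rfl⟩
      refine mem_iInter.2 fun T => subset_closure ?_
      obtain ⟨u, hu, e⟩ := hper.exists_mem_Ico (sub_pos.2 hlt) t T
      exact ⟨u, hu.1, e.symm⟩
    · have hc : IsClosed (range (flow F p₀)) := by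
        rw [← hper.image_Icc (sub_pos.2 hlt) 0]
        exact (isCompact_Icc.image (continuous_flow F p₀)).isClosed
      exact fun z hz => closure_minimal (image_subset_range _ _) hc (mem_iInter.1 hz 0)
  obtain ⟨p, hp, -⟩ := exists_cluster hb (u := fun n => n) fun n => le_rfl
  set y := flow F p
  have hyω : ∀ t, y t ∈ omegaSet (flow F p₀) := flow_mem_omegaSet F hp
  have hyb : ∀ t, 0 ≤ t → ‖y t‖ ≤ R := fun t _ => by
    simpa using omegaSet_subset_ball hb (hyω t)
  obtain ⟨q, hqy, -⟩ := exists_cluster hyb (u := fun n => n) fun n => le_rfl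
  have hclosed : IsClosed (omegaSet (flow F p₀)) := isClosed_iInter fun T => isClosed_closure
  have hqω : q ∈ omegaSet (flow F p₀) :=
    closure_minimal (by rintro _ ⟨t, -, rfl⟩; exact hyω t) hclosed (mem_iInter.1 hqy 0)
  have hq := hω q hqω
  obtain ⟨ε, hε, hcross, hbox⟩ := exists_transversal F hq
  have hc0 : coord q (F.g q) q = 0 := by simp [coord]
  obtain ⟨ρ, hρ, hw⟩ := hbox q (by simp [hc0]) (by simp [hc0, hε])
    (min 1 (ε * ‖F.g q‖)) (lt_min one_pos (by have := norm_pos_iff.2 hq; positivity))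
  have hstrict : ∀ z, dist z q < min 1 (ε * ‖F.g q‖) →
      |(coord q (F.g q) z).im| < ε := fun z hz => by
    refine lt_of_le_of_lt (Complex.abs_im_le_norm _) ?_
    rw [coord, norm_div, ← dist_eq_norm, div_lt_iff₀ (norm_pos_iff.2 hq)]
    exact hz.trans_le (min_le_right _ _)
  obtain ⟨s₁, -, hs₁⟩ := exists_time hqy 0 hρ
  obtain ⟨s₂, hs₂l, hs₂⟩ := exists_time hqy (s₁ + 3) hρ
  obtain ⟨t₁, ht₁, h₁, -, d₁⟩ := hw _ hs₁
  obtain ⟨t₂, ht₂, h₂, -, d₂⟩ := hw _ hs₂
  rw [flow_add] at h₁ d₁ h₂ d₂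
  have heq : y (s₁ + t₁) = y (s₂ + t₂) := eq_of_mem_transversal hi hq (hcross p₀) hbox
    (hyω _) (hyω _) h₁ (hstrict _ d₁) h₂ (hstrict _ d₂)
  set P := s₂ + t₂ - (s₁ + t₁)
  have hP : 0 < P := by
    have := abs_le.1 (ht₁.trans (min_le_left _ _))
    have := abs_le.1 (ht₂.trans (min_le_left _ _))
    simp only [P]
    linarith
  have hper : Function.Periodic y P := fun t => by
    show flow F p (t + P) = flow F p t
    rw [show t + P = s₂ + t₂ + (t - (s₁ + t₁)) by simp only [P]; ring, ← flow_add,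
      ← (show flow F p (s₁ + t₁) = flow F p (s₂ + t₂) from heq), flow_add, add_sub_cancel]
  refine ⟨p, P, hP, hper, Subset.antisymm (range_subset_iff.2 hyω) fun r hr => ?_⟩
  by_contra hrΓ
  set Γ := range y
  have hΓc : IsCompact Γ := by
    show IsCompact (range y)
    rw [← hper.image_Icc hP 0]
    exact isCompact_Icc.image (continuous_flow F p)
  have hΓne : Γ.Nonempty := range_nonempty y
  have hd : 0 < infDist r Γ := (hΓc.isClosed.notMem_iff_infDist_pos hΓne).1 hrΓ
  -- limit points at every small distance from the orbit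
  have hlevel : ∀ η, 0 < η → η < infDist r Γ →
      ∃ z ∈ omegaSet (flow F p₀), infDist z Γ = η := by
    intro η hη hηd
    have hex : ∀ n : ℕ, ∃ s : ℝ, (n : ℝ) ≤ s ∧ infDist (flow F p₀ s) Γ = η := fun n => by
      obtain ⟨a, han, ha⟩ := exists_time hp n hη
      obtain ⟨b, hbn, hb'⟩ := exists_time hr n (sub_pos.2 hηd)
      have ha' : infDist (flow F p₀ a) Γ ≤ η := (infDist_le_dist_of_mem
        (show p ∈ Γ from ⟨0, flow_zero F p⟩)).trans ha.le
      have hb'' : η ≤ infDist (flow F p₀ b) Γ := by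
        have := infDist_le_infDist_add_dist (x := r) (y := flow F p₀ b) (s := Γ)
        rw [dist_comm] at this
        linarith
      obtain ⟨s, hs, e⟩ := intermediate_value_uIcc
        ((continuous_infDist_pt Γ).comp (continuous_flow F p₀)).continuousOn
        (Set.mem_uIcc.2 (Or.inl ⟨ha', hb''⟩))
      exact ⟨s, le_trans (le_min han hbn) hs.1, e⟩
    choose s hs hsd using hex
    obtain ⟨z, hz, φ, -, hlim⟩ := exists_cluster hb hs
    refine ⟨z, hz, tendsto_nhds_unique ((continuous_infDist_pt Γ).tendsto z |>.comp hlim) ?_⟩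
    simp only [Function.comp_def, hsd]
    exact tendsto_const_nhds
  have hex : ∀ n : ℕ, ∃ z ∈ omegaSet (flow F p₀),
      infDist z Γ = infDist r Γ * (1 / ((n : ℝ) + 2)) := fun n =>
    hlevel _ (by positivity) (mul_lt_of_lt_one_right hd
      ((div_lt_one (by positivity)).2 (by linarith [n.cast_nonneg (α := ℝ)])))
  choose z hz hzd using hex
  obtain ⟨q', -, φ, hφ, hlim⟩ := (isCompact_closedBall (0 : ℂ) R).tendsto_subseq
    (x := z) fun n => omegaSet_subset_ball hb (hz n)
  have hq'Γ : q' ∈ Γ := (hΓc.isClosed.mem_iff_infDist_zero hΓne).2 (tendsto_nhds_unique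
    ((continuous_infDist_pt Γ).tendsto q' |>.comp hlim) (by
      have h := (tendsto_one_div_add_atTop_nhds_zero_nat.comp
        ((tendsto_add_atTop_nat 1).comp hφ.tendsto_atTop)).const_mul (infDist r Γ)
      rw [mul_zero] at h
      refine h.congr fun n => ?_
      simp only [Function.comp_def, hzd]
      push_cast
      ring))
  obtain ⟨u, rfl⟩ := hq'Γ
  have hq' := hω _ (hyω u)
  obtain ⟨ε', hε', hcross', hbox'⟩ := exists_transversal F hq'
  have hc0' : coord (y u) (F.g (y u)) (y u) = 0 := by simp [coord]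
  have hv' : 0 < ‖F.g (y u)‖ := norm_pos_iff.2 hq'
  obtain ⟨ρ', hρ', hw'⟩ := hbox' (y u) (by simp [hc0']) (by simp [hc0', hε'])
    (ε' * ‖F.g (y u)‖) (by positivity)
  obtain ⟨n, hn⟩ := (hlim.eventually (ball_mem_nhds _ hρ')).exists
  obtain ⟨t, -, ht0, -, htd⟩ := hw' _ hn
  have he : flow F (z (φ n)) t = y u := eq_of_mem_transversal hi hq' (hcross' p₀) hbox'
    (flow_mem_omegaSet F (hz _) t) (hyω u) ht0 (by
      refine lt_of_le_of_lt (Complex.abs_im_le_norm _) ?_
      rw [coord, norm_div, ← dist_eq_norm, div_lt_iff₀ hv']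
      exact htd) (by simp [hc0']) (by simp [hc0', hε'])
  have hzΓ : z (φ n) ∈ Γ := ⟨u + -t, by
    show flow F p (u + -t) = _
    rw [← flow_add, show flow F p u = flow F (z (φ n)) t from he.symm, flow_add, add_neg_cancel,
      flow_zero]⟩
  have := hzd (φ n)
  rw [infDist_zero_of_mem hzΓ] at this
  have : 0 < infDist r Γ * (1 / ((φ n : ℝ) + 2)) := by positivity
  linarith

/-- A bounded trajectory is one of a bounded Lipschitz field agreeing with the given one on a
ball around it. -/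
theorem exists_field {f : ℂ → ℂ} (hf : LocallyLipschitz f) {x : ℝ → ℂ}
    (hx : ∀ t, 0 ≤ t → HasDerivWithinAt x (f (x t)) (Ici 0) t)
    (hb : Bornology.IsBounded (x '' Ici 0)) (q : ℂ) :
    ∃ (F : Field ℂ) (D : ℝ), ‖q‖ ≤ D ∧ (∀ t, 0 ≤ t → ‖x t‖ ≤ D) ∧
      (∀ z, ‖z‖ ≤ D → F.g z = f z) ∧ ∀ t, 0 ≤ t → x t = flow F (x 0) t := by
  obtain ⟨R, hR⟩ := hb.subset_closedBall 0
  set D := max (max R 1) ‖q‖
  have hD : 0 < D := lt_max_of_lt_left (lt_max_of_lt_right one_pos)
  obtain ⟨K, hK⟩ := hf.locallyLipschitzOn.exists_lipschitzOnWith_of_compact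
    (isCompact_closedBall (0 : ℂ) D)
  obtain ⟨M, hM⟩ := (isCompact_closedBall (0 : ℂ) D).exists_bound_of_continuousOn hK.continuousOn
  have hmaps : ∀ z : ℂ, HartmanGrobman.retract D z ∈ closedBall (0 : ℂ) D := fun z => by
    simpa using HartmanGrobman.norm_retract_le hD z
  set F : Field ℂ :=
    { g := fun z => f (HartmanGrobman.retract D z)
      K := K * 2
      M := M.toNNReal
      lip := lipschitzOnWith_univ.1 (hK.comp
        (HartmanGrobman.lipschitz_retract hD).lipschitzOnWith fun z _ => hmaps z)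
      bound := fun z => (hM _ (hmaps z)).trans (Real.le_coe_toNNReal M) }
  have hgf : ∀ z, ‖z‖ ≤ D → F.g z = f z := fun z hz => by
    show f (HartmanGrobman.retract D z) = f z
    rw [HartmanGrobman.retract_eq hD hz]
  have hxD : ∀ t, 0 ≤ t → ‖x t‖ ≤ D := fun t ht =>
    (mem_closedBall_zero_iff.1 (hR (mem_image_of_mem x ht))).trans
      ((le_max_left _ _).trans (le_max_left _ _))
  exact ⟨F, D, le_max_right _ _, hxD, hgf, fun t ht =>
    eq_flow_of_forward F (fun s hs => by rw [hgf _ (hxD s hs)]; exact hx s hs) ht⟩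

/-- **The theorem of Poincaré and Bendixson.** -/
theorem poincare_bendixson {f : ℂ → ℂ} (hf : LocallyLipschitz f) {x : ℝ → ℂ}
    (hx : ∀ t, 0 ≤ t → HasDerivWithinAt x (f (x t)) (Ici 0) t)
    (hb : Bornology.IsBounded (x '' Ici 0)) (hω : ∀ z ∈ omegaSet x, f z ≠ 0) :
    ∃ (γ : ℝ → ℂ) (P : ℝ), 0 < P ∧ (∀ t, HasDerivAt γ (f (γ t)) t) ∧
      Function.Periodic γ P ∧ range γ = omegaSet x := by
  obtain ⟨F, D, -, hxD, hgf, hflow⟩ := exists_field hf hx hb 0
  have homega : omegaSet (flow F (x 0)) = omegaSet x := by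
    have e : ∀ T, 0 ≤ T → x '' Ici T = flow F (x 0) '' Ici T := fun T hT =>
      image_congr fun t ht => hflow t (hT.trans ht)
    ext z
    simp only [omegaSet, mem_iInter]
    exact ⟨fun h T => closure_mono (image_mono (Ici_subset_Ici.2 (le_max_left T 0)))
        (e (max T 0) (le_max_right _ _) ▸ h (max T 0)),
      fun h T => closure_mono (image_mono (Ici_subset_Ici.2 (le_max_left T 0)))
        ((e (max T 0) (le_max_right _ _)).symm ▸ h (max T 0))⟩
  have hyD : ∀ t, 0 ≤ t → ‖flow F (x 0) t‖ ≤ D := fun t ht => hflow t ht ▸ hxD t ht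
  have hin : ∀ z ∈ omegaSet (flow F (x 0)), ‖z‖ ≤ D := fun z hz => by
    simpa using omegaSet_subset_ball hyD hz
  obtain ⟨p, P, hP, hper, hrange⟩ := exists_periodic hyD fun z hz => by
    rw [hgf z (hin z hz)]
    exact hω z (homega ▸ hz)
  refine ⟨flow F p, P, hP, fun t => ?_, hper, hrange.trans homega⟩
  rw [← hgf _ (hin _ (hrange ▸ mem_range_self t))]
  exact hasDerivAt_flow F p t

/-- **Crossings of a transversal are monotone along it.** -/
theorem transversal_monotone {f : ℂ → ℂ} (hf : LocallyLipschitz f) {x : ℝ → ℂ}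
    (hx : ∀ t, 0 ≤ t → HasDerivWithinAt x (f (x t)) (Ici 0) t)
    (hb : Bornology.IsBounded (x '' Ici 0)) (hi : InjOn x (Ici 0)) {q : ℂ} (hq : f q ≠ 0) :
    ∃ ε > 0, ∀ a b c : ℝ, 0 ≤ a → a < b → b < c →
      (∀ t ∈ ({a, b, c} : Set ℝ), ((x t - q) / f q).re = 0 ∧ |((x t - q) / f q).im| ≤ ε) →
      (((x a - q) / f q).im < ((x b - q) / f q).im →
        ((x b - q) / f q).im < ((x c - q) / f q).im) ∧
      (((x b - q) / f q).im < ((x a - q) / f q).im →
        ((x c - q) / f q).im < ((x b - q) / f q).im) := by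
  obtain ⟨F, D, hqD, -, hgf, hflow⟩ := exists_field hf hx hb q
  rw [← hgf q hqD] at hq ⊢
  obtain ⟨ε, hε, hcross, -⟩ := exists_transversal F hq
  refine ⟨ε, hε, fun a b c ha hab hbc hC => ?_⟩
  set y := fun t => coord q (F.g q) (flow F (x 0) t)
  have hy : ∀ t, 0 ≤ t → (x t - q) / F.g q = y t := fun t ht => by
    simp only [y, coord, ← hflow t ht]
  have hyi : InjOn y (Ici 0) := fun s hs t ht e =>
    hi hs ht (by rw [hflow s hs, hflow t ht]; exact coord_inj hq e)
  have hyc : ContinuousOn y (Ici 0) :=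
    (((continuous_flow F (x 0)).sub continuous_const).div_const _).continuousOn
  have hmem : ∀ t ∈ ({a, b, c} : Set ℝ), 0 ≤ t → t ∈ crossings y ε := fun t ht ht0 =>
    ⟨ht0, by rw [← hy t ht0]; exact (hC t ht).1, by rw [← hy t ht0]; exact (hC t ht).2⟩
  have hb0 : 0 ≤ b := ha.trans hab.le
  have hA := hmem a (by simp) ha
  have hB := hmem b (by simp) hb0
  have hC' := hmem c (by simp) (hb0.trans hbc.le)
  rw [hy a ha, hy b hb0, hy c (hb0.trans hbc.le)]
  exact ⟨im_lt_of_lt hyc hyi (hcross _) hA hB hC' hab hbc,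
    im_gt_of_gt hyc hyi (hcross _) hA hB hC' hab hbc⟩

/-- **A trapping region without equilibria holds a periodic orbit.** -/
theorem trapping_region {f : ℂ → ℂ} (hf : LocallyLipschitz f) {K : Set ℂ} (hK : IsCompact K)
    (h0 : ∀ z ∈ K, f z ≠ 0) {x : ℝ → ℂ}
    (hx : ∀ t, 0 ≤ t → HasDerivWithinAt x (f (x t)) (Ici 0) t) (hxK : ∀ t, 0 ≤ t → x t ∈ K) :
    ∃ (γ : ℝ → ℂ) (P : ℝ), 0 < P ∧ (∀ t, HasDerivAt γ (f (γ t)) t) ∧
      Function.Periodic γ P ∧ range γ ⊆ K ∧ ∀ t, f (γ t) ≠ 0 := by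
  have hsub : x '' Ici 0 ⊆ K := by
    rintro _ ⟨t, ht, rfl⟩
    exact hxK t ht
  have hω : omegaSet x ⊆ K := fun z hz => closure_minimal hsub hK.isClosed (mem_iInter.1 hz 0)
  obtain ⟨γ, P, hP, hγ, hper, hrange⟩ :=
    poincare_bendixson hf hx (hK.isBounded.subset hsub) fun z hz => h0 z (hω hz)
  exact ⟨γ, P, hP, hγ, hper, hrange ▸ hω,
    fun t => h0 _ (hω (hrange ▸ mem_range_self t))⟩

end FA.PoincareBendixson
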