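import Fermat.Agent.Jordan.Circle
import Mathlib.Analysis.Normed.Module.Convex

/-!
# Crossings of a transversal are monotone

An injective curve which crosses the segment `re = 0`, `|im| ≤ ε` only from left to right closes
up, between two consecutive crossings, with that segment to a Jordan curve.  It enters the
component on the right and stays there, while the rest of the segment behind the first crossing
lies in the component on the left, so the heights of the crossings are monotone.
-/

set_option autoImplicit false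

noncomputable section

namespace FA.PoincareBendixson

open Set Metric Filter Topology Complex FA.Jordan

/-- The point of height `s` on the vertical axis. -/
def axis (s : ℝ) : ℂ := (s : ℂ) * I

theorem axis_re (s : ℝ) : (axis s).re = 0 := by simp [axis]

theorem axis_im (s : ℝ) : (axis s).im = s := by simp [axis]

theorem eq_axis {z : ℂ} (h : z.re = 0) : z = axis z.im :=
  Complex.ext (h.trans (axis_re _).symm) (axis_im _).symm

theorem continuous_axis : Continuous axis := continuous_ofReal.mul continuous_const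

/-- The segment of the axis between two heights. -/
def axisSeg (a b : ℝ) : Set ℂ := axis '' Icc a b

theorem mem_axisSeg {a b : ℝ} {z : ℂ} : z ∈ axisSeg a b ↔ z.re = 0 ∧ z.im ∈ Icc a b :=
  ⟨fun ⟨s, hs, e⟩ => e ▸ ⟨axis_re s, by rwa [axis_im]⟩, fun ⟨h, hz⟩ => ⟨z.im, hz, (eq_axis h).symm⟩⟩

theorem convex_axisSeg (a b : ℝ) : Convex ℝ (axisSeg a b) := by
  have e : axisSeg a b = {z | z.re = 0} ∩ (Complex.im ⁻¹' Icc a b) := by
    ext z
    simp [mem_axisSeg]
  rw [e]
  exact (convex_hyperplane Complex.reLm.isLinear 0).inter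
    ((convex_Icc a b).linear_preimage Complex.imLm)

/-- A part of an arc avoiding `H` near one time stays away from that point. -/
theorem notMem_closure_inter {x : ℝ → ℂ} {u v t : ℝ} (hc : ContinuousOn x (Icc u v))
    (hi : InjOn x (Icc u v)) (ht : t ∈ Icc u v) {H : Set ℂ}
    (h : ∀ᶠ s in 𝓝 t, s ∈ Icc u v → x s ∉ H) : x t ∉ closure (x '' Icc u v ∩ H) := by
  obtain ⟨O, hO, hOo, htO⟩ := _root_.eventually_nhds_iff.1 h
  have hcl : IsClosed (x '' (Icc u v \ O)) :=
    ((isCompact_Icc.diff hOo).image_of_continuousOn (hc.mono sdiff_subset)).isClosed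
  intro hmem
  have hsub : x '' Icc u v ∩ H ⊆ x '' (Icc u v \ O) := by
    rintro _ ⟨⟨s, hs, rfl⟩, hH⟩
    exact ⟨s, ⟨hs, fun hsO => hO s hsO hs hH⟩, rfl⟩
  obtain ⟨s, ⟨hs, hsO⟩, hst⟩ := closure_minimal hsub hcl hmem
  exact hsO (hi hs ht hst ▸ htO)

/-- One side of a segment of the axis avoids a compact set. -/
theorem exists_side {A H : Set ℂ} {a b : ℝ} (hA : ∀ s ∈ Icc a b, axis s ∉ closure (A ∩ H))
    (hH : Convex ℝ H) :
    ∃ η > 0, Convex ℝ (thickening η (axisSeg a b) ∩ H) ∧
      Disjoint (thickening η (axisSeg a b) ∩ H) A := by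
  obtain ⟨η, hη, hd⟩ := Disjoint.exists_thickenings (s := axisSeg a b) (t := closure (A ∩ H))
    (disjoint_left.2 fun z ⟨s, hs, e⟩ => e ▸ hA s hs)
    (isCompact_Icc.image continuous_axis) isClosed_closure
  refine ⟨η, hη, ((convex_axisSeg a b).thickening η).inter hH, disjoint_left.2 fun z hz hzA => ?_⟩
  exact disjoint_left.1 hd hz.1 (self_subset_thickening hη _ (subset_closure ⟨hzA, hz.2⟩))

/-- The times of the crossings. -/
def crossings (x : ℝ → ℂ) (ε : ℝ) : Set ℝ := {t | 0 ≤ t ∧ (x t).re = 0 ∧ |(x t).im| ≤ ε}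

/-- The curve crosses only from left to right. -/
def CrossesRight (x : ℝ → ℂ) (ε : ℝ) : Prop :=
  ∀ t ∈ crossings x ε, ∀ᶠ s in 𝓝 t, (s < t → (x s).re < 0) ∧ (t < s → 0 < (x s).re)

variable {x : ℝ → ℂ} {ε : ℝ}

/-- **One step.** -/
theorem im_lt_of_consecutive (hc : ContinuousOn x (Ici 0)) (hi : InjOn x (Ici 0))
    (hx : CrossesRight x ε) {u v : ℝ} (hu : u ∈ crossings x ε) (hv : v ∈ crossings x ε)
    (huv : u < v) (hno : ∀ t ∈ Ioo u v, t ∉ crossings x ε) (hk : (x u).im < (x v).im) {c : ℝ}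
    (hcC : c ∈ crossings x ε) (hvc : v < c) : (x v).im < (x c).im := by
  set ku := (x u).im
  set kv := (x v).im
  have hsub : Icc u v ⊆ Ici (0 : ℝ) := fun t ht => le_trans hu.1 ht.1
  have hcu := hc.mono hsub
  have hiu := hi.mono hsub
  set A := x '' Icc u v
  have hAc : IsCompact A := isCompact_Icc.image_of_continuousOn hcu
  have hxu : x u = axis ku := eq_axis hu.2.1
  have hxv : x v = axis kv := eq_axis hv.2.1
  have hkε : -ε ≤ ku ∧ kv ≤ ε := ⟨(abs_le.1 hu.2.2).1, (abs_le.1 hv.2.2).2⟩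
  have honly : ∀ s, |s| ≤ ε → axis s ∈ A → s = ku ∨ s = kv := by
    rintro s hs ⟨t, ht, e⟩
    have htC : t ∈ crossings x ε :=
      ⟨hsub ht, by rw [e, axis_re], by rwa [e, axis_im]⟩
    rcases ht.1.eq_or_lt with rfl | h1
    · exact Or.inl (by rw [show ku = (x u).im from rfl, e, axis_im])
    rcases ht.2.eq_or_lt with rfl | h2
    · exact Or.inr (by rw [show kv = (x t).im from rfl, e, axis_im])
    exact absurd htC (hno t ⟨h1, h2⟩)
  -- the loop
  set B := axisSeg ku kv
  have hBarc : IsArc B (x u) (x v) := by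
    rw [hxu, hxv]
    exact isArc_of_param hk continuous_axis.continuousOn fun s _ t _ e => by
      simpa [axis_im] using congrArg Complex.im e
  have hAB : A ∩ B = {x u, x v} := by
    ext z
    refine ⟨fun ⟨hzA, hzB⟩ => ?_, ?_⟩
    · obtain ⟨s, hs, rfl⟩ := hzB
      rcases honly s (abs_le.2 ⟨hkε.1.trans hs.1, hs.2.trans hkε.2⟩) hzA with rfl | rfl
      · exact Or.inl hxu.symm
      · exact Or.inr hxv.symm
    · rintro (rfl | rfl)
      · exact ⟨mem_image_of_mem x (left_mem_Icc.2 huv.le), hBarc.left_mem⟩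
      · exact ⟨mem_image_of_mem x (right_mem_Icc.2 huv.le), hBarc.right_mem⟩
  set S : Split (A ∪ B) := ⟨A, B, x u, x v, isArc_of_param huv hcu hiu, hBarc, rfl, hAB⟩
  set K := A ∪ B
  obtain ⟨U, V, -, -, -, -, hdisj, hUV, -, -, hfU, hfV, hcomp⟩ := S.isLoop.jordan
  -- the two sides
  set R : Set ℂ := {z | 0 < z.re}
  set Le : Set ℂ := {z | z.re < 0}
  have hRc : Convex ℝ R := convex_halfSpace_gt Complex.reLm.isLinear 0
  have hLc : Convex ℝ Le := convex_halfSpace_lt Complex.reLm.isLinear 0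
  have hnotB : ∀ z : ℂ, z.re ≠ 0 → z ∉ B := fun z hz h => hz (mem_axisSeg.1 h).1
  have hright : ∀ s ∈ Ioc ku kv, axis s ∉ closure (A ∩ R) := by
    intro s hs
    rcases hs.2.eq_or_lt with rfl | hlt
    · rw [← hxv]
      refine notMem_closure_inter hcu hiu (right_mem_Icc.2 huv.le) ?_
      filter_upwards [hx v hv] with t ht htI
      rcases htI.2.eq_or_lt with rfl | h
      · simp [R, hv.2.1]
      · exact fun h' => lt_asymm (ht.1 h) h'
    · refine fun h => ?_
      have := hAc.isClosed.closure_subset_iff.2 inter_subset_left h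
      rcases honly s (abs_le.2 ⟨hkε.1.trans hs.1.le, hlt.le.trans hkε.2⟩) this with e | e
      · exact hs.1.ne' e
      · exact hlt.ne e
  have hleft : ∀ s ∈ Ico ku kv, axis s ∉ closure (A ∩ Le) := by
    intro s hs
    rcases hs.1.eq_or_lt with rfl | hlt
    · rw [← hxu]
      refine notMem_closure_inter hcu hiu (left_mem_Icc.2 huv.le) ?_
      filter_upwards [hx u hu] with t ht htI
      rcases htI.1.eq_or_lt with rfl | h
      · simp [Le, hu.2.1]
      · exact fun h' => lt_asymm (ht.2 h) h'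
    · refine fun h => ?_
      have := hAc.isClosed.closure_subset_iff.2 inter_subset_left h
      rcases honly s (abs_le.2 ⟨hkε.1.trans hlt.le, hs.2.le.trans hkε.2⟩) this with e | e
      · exact hlt.ne' e
      · exact hs.2.ne e
  -- the middle
  set m := (ku + kv) / 2
  have hm : m ∈ Ioo ku kv := ⟨by simp only [m]; linarith, by simp only [m]; linarith⟩
  have hmA : axis m ∉ A := fun h => by
    rcases honly m (abs_le.2 ⟨hkε.1.trans hm.1.le, hm.2.le.trans hkε.2⟩) h with e | e
    · exact hm.1.ne' e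
    · exact hm.2.ne e
  obtain ⟨ρ, hρ, hρA⟩ := Metric.isOpen_iff.1 hAc.isClosed.isOpen_compl _ hmA
  set zR : ℂ := axis m + ((ρ / 2 : ℝ) : ℂ)
  set zL : ℂ := axis m - ((ρ / 2 : ℝ) : ℂ)
  have hzR : zR.re = ρ / 2 := by simp [zR, axis_re]
  have hzL : zL.re = -(ρ / 2) := by simp [zL, axis_re]
  have hpre : ∀ T : Set ℂ, IsPreconnected T → Disjoint T K → ∀ a ∈ T,
      T ⊆ connectedComponentIn Kᶜ a := fun T hT hd a ha =>
    hT.subset_connectedComponentIn ha fun z hz => disjoint_left.1 hd hz
  set UR := connectedComponentIn Kᶜ zR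
  set UL := connectedComponentIn Kᶜ zL
  have hballR : ball (axis m) ρ ∩ R ⊆ UR :=
    hpre _ ((convex_ball _ _).inter hRc).isPreconnected
      (disjoint_left.2 fun z hz hzK => hzK.elim (fun h => hρA hz.1 h) (hnotB z hz.2.ne'))
      _ ⟨by simp [zR, abs_of_pos hρ, hρ], show 0 < zR.re by rw [hzR]; linarith⟩
  have hballL : ball (axis m) ρ ∩ Le ⊆ UL :=
    hpre _ ((convex_ball _ _).inter hLc).isPreconnected
      (disjoint_left.2 fun z hz hzK => hzK.elim (fun h => hρA hz.1 h) (hnotB z hz.2.ne))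
      _ ⟨by simp [zL, abs_of_pos hρ, hρ], show zL.re < 0 by rw [hzL]; linarith⟩
  have hne : Disjoint UR UL := by
    have hzRK : zR ∉ K := fun h => h.elim
      (fun h => hρA (show zR ∈ ball (axis m) ρ by simp [zR, abs_of_pos hρ, hρ]) h)
      (hnotB _ (by rw [hzR]; positivity))
    have hzLK : zL ∉ K := fun h => h.elim
      (fun h => hρA (show zL ∈ ball (axis m) ρ by simp [zL, abs_of_pos hρ, hρ]) h)
      (hnotB _ (by rw [hzL]; linarith))
    have key : ∀ W : Set ℂ, frontier W = K → Disjoint W K → Disjoint W UR → Disjoint W UL →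
        False := by
      intro W hW hWK hR hL
      have hmK : axis m ∈ frontier W :=
        hW ▸ Or.inr ⟨m, Ioo_subset_Icc_self hm, rfl⟩
      set σ := min ρ (min (m - ku) (kv - m))
      have hσ : 0 < σ := lt_min hρ (lt_min (sub_pos.2 hm.1) (sub_pos.2 hm.2))
      obtain ⟨z, hzW, hz⟩ := Metric.mem_closure_iff.1 (frontier_subset_closure hmK) σ hσ
      rw [dist_comm] at hz
      have hzρ : z ∈ ball (axis m) ρ := hz.trans_le (min_le_left _ _)
      rcases lt_trichotomy z.re 0 with h | h | h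
      · exact disjoint_left.1 hL hzW (hballL ⟨hzρ, h⟩)
      · have him : |z.im - m| < σ := by
          refine lt_of_le_of_lt ?_ hz
          rw [dist_eq_norm]
          simpa [axis_im] using Complex.abs_im_le_norm (z - axis m)
        have h1 := (abs_lt.1 him)
        have h2 : σ ≤ m - ku ∧ σ ≤ kv - m :=
          ⟨(min_le_right _ _).trans (min_le_left _ _), (min_le_right _ _).trans (min_le_right _ _)⟩
        exact disjoint_left.1 hWK hzW
          (Or.inr (mem_axisSeg.2 ⟨h, by linarith, by linarith⟩))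
      · exact disjoint_left.1 hR hzW (hballR ⟨hzρ, h⟩)
    have hUK : Disjoint U K := disjoint_left.2 fun z hz h =>
      (hUV.subset (Or.inl hz)) h
    have hVK : Disjoint V K := disjoint_left.2 fun z hz h =>
      (hUV.subset (Or.inr hz)) h
    rcases hcomp zR hzRK with e | e <;> rcases hcomp zL hzLK with e' | e'
    · exact (key V hfV hVK ((show UR = U from e) ▸ hdisj.symm)
        ((show UL = U from e') ▸ hdisj.symm)).elim
    · exact (show UR = U from e) ▸ (show UL = V from e') ▸ hdisj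
    · exact (show UR = V from e) ▸ (show UL = U from e') ▸ hdisj.symm
    · exact (key U hfU hUK ((show UR = V from e) ▸ hdisj)
        ((show UL = V from e') ▸ hdisj)).elim
  have hsideR : ∀ s ∈ Ioc ku kv, ∀ᶠ z in 𝓝 (axis s), 0 < z.re → z ∈ UR := by
    intro s hs
    obtain ⟨η, hη, hconv, hd⟩ := exists_side (a := min m s) (b := max m s) (fun r hr =>
      hright r ⟨(lt_min hm.1 hs.1).trans_le hr.1, hr.2.trans (max_le hm.2.le hs.2)⟩) hRc
    set T := thickening η (axisSeg (min m s) (max m s)) ∩ R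
    set δ := min η ρ / 2
    have hδ : 0 < δ := half_pos (lt_min hη hρ)
    have hw : axis m + (δ : ℂ) ∈ T := by
      refine ⟨mem_thickening_iff.2 ⟨axis m, ⟨m, ⟨min_le_left _ _, le_max_left _ _⟩, rfl⟩, ?_⟩, ?_⟩
      · rw [dist_self_add_left, Complex.norm_real, Real.norm_of_nonneg hδ.le]
        exact (half_lt_self (lt_min hη hρ)).trans_le (min_le_left _ _)
      · simpa [R, axis_re] using hδ
    have hwball : axis m + (δ : ℂ) ∈ ball (axis m) ρ ∩ R := ⟨by
      rw [mem_ball, dist_self_add_left, Complex.norm_real, Real.norm_of_nonneg hδ.le]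
      exact (half_lt_self (lt_min hη hρ)).trans_le (min_le_right _ _), hw.2⟩
    have hwR : axis m + (δ : ℂ) ∈ UR := hballR hwball
    have hTU : T ⊆ UR := by
      show T ⊆ connectedComponentIn Kᶜ zR
      rw [connectedComponentIn_eq hwR]
      exact hpre _ hconv.isPreconnected (disjoint_left.2 fun z hz hzK =>
        hzK.elim (disjoint_left.1 hd hz) (hnotB z hz.2.ne')) _ hw
    filter_upwards [isOpen_thickening.mem_nhds (self_subset_thickening hη
      (axisSeg (min m s) (max m s))
      (mem_image_of_mem axis (show s ∈ Icc (min m s) (max m s) from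
        ⟨min_le_right _ _, le_max_right _ _⟩)))] with z hz hz0
    exact hTU ⟨hz, hz0⟩
  have hsideL : ∀ s ∈ Ico ku kv, ∀ᶠ z in 𝓝 (axis s), z.re < 0 → z ∈ UL := by
    intro s hs
    obtain ⟨η, hη, hconv, hd⟩ := exists_side (a := min m s) (b := max m s) (fun r hr =>
      hleft r ⟨(le_min hm.1.le hs.1).trans hr.1, hr.2.trans_lt (max_lt hm.2 hs.2)⟩) hLc
    set T := thickening η (axisSeg (min m s) (max m s)) ∩ Le
    set δ := min η ρ / 2
    have hδ : 0 < δ := half_pos (lt_min hη hρ)
    have hw : axis m - (δ : ℂ) ∈ T := by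
      refine ⟨mem_thickening_iff.2 ⟨axis m, ⟨m, ⟨min_le_left _ _, le_max_left _ _⟩, rfl⟩, ?_⟩, ?_⟩
      · rw [dist_self_sub_left, Complex.norm_real, Real.norm_of_nonneg hδ.le]
        exact (half_lt_self (lt_min hη hρ)).trans_le (min_le_left _ _)
      · simpa [Le, axis_re] using hδ
    have hwball : axis m - (δ : ℂ) ∈ ball (axis m) ρ ∩ Le := ⟨by
      rw [mem_ball, dist_self_sub_left, Complex.norm_real, Real.norm_of_nonneg hδ.le]
      exact (half_lt_self (lt_min hη hρ)).trans_le (min_le_right _ _), hw.2⟩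
    have hwL : axis m - (δ : ℂ) ∈ UL := hballL hwball
    have hTU : T ⊆ UL := by
      show T ⊆ connectedComponentIn Kᶜ zL
      rw [connectedComponentIn_eq hwL]
      exact hpre _ hconv.isPreconnected (disjoint_left.2 fun z hz hzK =>
        hzK.elim (disjoint_left.1 hd hz) (hnotB z hz.2.ne)) _ hw
    filter_upwards [isOpen_thickening.mem_nhds (self_subset_thickening hη
      (axisSeg (min m s) (max m s))
      (mem_image_of_mem axis (show s ∈ Icc (min m s) (max m s) from
        ⟨min_le_right _ _, le_max_right _ _⟩)))] with z hz hz0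
    exact hTU ⟨hz, hz0⟩
  have hKclosed : IsClosed K := (hAc.union (isCompact_Icc.image continuous_axis)).isClosed
  -- the curve stays on the right
  have hstay : ∀ t, v < t → x t ∈ UR := by
    intro t₀ ht₀
    have hev : ∀ᶠ t in 𝓝[>] v, x t ∈ UR := by
      have h1 : ∀ᶠ t in 𝓝[>] v, 0 < (x t).re := by
        filter_upwards [(hx v hv).filter_mono nhdsWithin_le_nhds, self_mem_nhdsWithin] with t ht htv
        exact ht.2 htv
      have h2 : Tendsto x (𝓝[>] v) (𝓝 (axis kv)) := hxv ▸
        (hc v hv.1).mono_left (nhdsWithin_mono _ fun t ht => le_trans hv.1 (le_of_lt ht))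
      filter_upwards [h1, h2.eventually (hsideR kv ⟨hk, le_rfl⟩)] with t ht ht'
      exact ht' ht
    obtain ⟨a, ha, hva, hat⟩ :=
      (hev.and (eventually_nhdsWithin_of_eventually_nhds
        (eventually_lt_nhds ht₀) |>.and self_mem_nhdsWithin)).exists.imp fun a h =>
          (⟨h.1, h.2.2, h.2.1⟩ : x a ∈ UR ∧ v < a ∧ a < t₀)
    have hIcc : Icc a t₀ ⊆ Ici (0 : ℝ) := fun t ht => le_trans hv.1 (hva.le.trans ht.1)
    by_contra hbad
    have hex : ∃ t ∈ Icc a t₀, x t ∈ K := by
      by_contra hno'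
      push Not at hno'
      refine hbad (?_ : x t₀ ∈ UR)
      rw [show UR = connectedComponentIn Kᶜ (x a) from connectedComponentIn_eq ha]
      exact hpre _ (isPreconnected_Icc.image x (hc.mono hIcc))
        (disjoint_left.2 fun z ⟨t, ht, e⟩ => e ▸ hno' t ht) _
        (mem_image_of_mem x (left_mem_Icc.2 hat.le)) (mem_image_of_mem x (right_mem_Icc.2 hat.le))
    obtain ⟨τ, ⟨hτI, hτK⟩, hτmin⟩ :=
      ((isCompact_Icc.of_isClosed_subset ((hc.mono hIcc).preimage_isClosed_of_isClosed isClosed_Icc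
        hKclosed) inter_subset_left).exists_isLeast
          (by obtain ⟨t, ht, ht'⟩ := hex; exact ⟨t, ht, ht'⟩))
    have haτ : a < τ := hτI.1.lt_of_ne fun e => by
      subst e
      exact connectedComponentIn_subset _ _ ha hτK
    have hbefore : ∀ t ∈ Ico a τ, x t ∈ UR := by
      intro t ht
      rw [show UR = connectedComponentIn Kᶜ (x a) from connectedComponentIn_eq ha]
      exact hpre _ (isPreconnected_Icc.image x (hc.mono (fun s hs => hIcc
          ⟨hs.1, hs.2.trans (ht.2.le.trans hτI.2)⟩)))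
        (disjoint_left.2 fun z ⟨s, hs, e⟩ hzK => not_lt.2 (hτmin ⟨⟨hs.1,
          hs.2.trans (ht.2.le.trans hτI.2)⟩, show x s ∈ K from e ▸ hzK⟩) (hs.2.trans_lt ht.2)) _
        (mem_image_of_mem x (left_mem_Icc.2 ht.1)) (mem_image_of_mem x (right_mem_Icc.2 ht.1))
    have hvτ : v < τ := hva.trans haτ
    rcases hτK with ⟨s, hs, e⟩ | hB
    · have := hi (hsub hs) (hIcc hτI) e
      linarith [hs.2]
    · obtain ⟨hre, him⟩ := mem_axisSeg.1 hB
      have hτC : τ ∈ crossings x ε :=
        ⟨hIcc hτI, hre, abs_le.2 ⟨hkε.1.trans him.1, him.2.trans hkε.2⟩⟩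
      have hlt : (x τ).im < kv := him.2.lt_of_ne fun e => hvτ.ne
        (hi hv.1 (hIcc hτI) (by rw [hxv, eq_axis hre, e]))
      have h1 : ∀ᶠ t in 𝓝[<] τ, (x t).re < 0 := by
        filter_upwards [(hx τ hτC).filter_mono nhdsWithin_le_nhds, self_mem_nhdsWithin]
          with t ht htτ
        exact ht.1 htτ
      have h2 : Tendsto x (𝓝[<] τ) (𝓝 (axis (x τ).im)) := by
        rw [← eq_axis hre]
        exact ((hc.continuousAt (Ici_mem_nhds (hv.1.trans_lt hvτ))).tendsto).mono_left
          nhdsWithin_le_nhds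
      obtain ⟨t, ht1, ht2, ht3⟩ := (h1.and ((h2.eventually (hsideL _ ⟨him.1, hlt⟩)).and
        (Ico_mem_nhdsLT haτ))).exists
      exact disjoint_left.1 hne (hbefore t ht3) (ht2 ht1)
  have hcR := hstay c hvc
  obtain ⟨hc0, hcre, hcim⟩ := hcC
  rw [abs_le] at hcim
  set kc := (x c).im
  have hxc : x c = axis kc := eq_axis hcre
  have hcK : x c ∉ K := connectedComponentIn_subset _ _ hcR
  rcases lt_or_ge kv kc with h | h
  · exact h
  exfalso
  rcases le_or_gt ku kc with h' | h'
  · exact hcK (Or.inr (mem_axisSeg.2 ⟨hcre, h', h⟩))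
  -- the segment behind the first crossing
  have hnotK : ∀ s, -ε ≤ s → s < ku → axis s ∉ K := fun s hs hs' hK' => hK'.elim
    (fun hA => by
      rcases honly s (abs_le.2 ⟨hs, by linarith [hk, hkε.2]⟩) hA with e | e
      · exact hs'.ne e
      · linarith)
    fun hB => by
      have := (mem_axisSeg.1 hB).2.1
      rw [axis_im] at this
      linarith
  have hclos : axis ku ∉ closure (A ∩ {z | z.re ≤ 0 ∧ z ≠ axis ku}) := by
    rw [← hxu]
    refine notMem_closure_inter hcu hiu (left_mem_Icc.2 huv.le) ?_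
    filter_upwards [hx u hu] with t ht htI
    rcases htI.1.eq_or_lt with rfl | h
    · exact fun h' => h'.2 rfl
    · exact fun h' => not_le.2 (ht.2 h) h'.1
  obtain ⟨r, hr, hrA⟩ := Metric.isOpen_iff.1 isClosed_closure.isOpen_compl _ hclos
  set Q := ball (axis ku) r ∩ ({z | z.re ≤ 0} ∩ {z | z.im < ku})
  have hQc : IsPreconnected Q := ((convex_ball _ _).inter
    ((convex_halfSpace_le Complex.reLm.isLinear 0).inter
      (convex_halfSpace_lt Complex.imLm.isLinear ku))).isPreconnected
  have hQK : Disjoint Q K := disjoint_left.2 fun z hz hzK => hzK.elim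
    (fun hA => hrA hz.1 (subset_closure ⟨hA, hz.2.1, fun e => by
      have := hz.2.2
      simp [e, axis_im] at this⟩))
    fun hB => not_le.2 hz.2.2 (mem_axisSeg.1 hB).2.1
  obtain ⟨r', hr', hr'L⟩ := Metric.eventually_nhds_iff.1 (hsideL ku ⟨le_rfl, hk⟩)
  set d := min (min r r') (ku - kc) / 2
  have hd : 0 < d := half_pos (lt_min (lt_min hr hr') (sub_pos.2 h'))
  have hdr : 2 * d ≤ r ∧ 2 * d ≤ r' ∧ 2 * d ≤ ku - kc := by
    have := min_le_left (min r r') (ku - kc)
    have := min_le_right (min r r') (ku - kc)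
    have := min_le_left r r'
    have := min_le_right r r'
    refine ⟨?_, ?_, ?_⟩ <;> simp only [d] <;> linarith
  set q : ℂ := axis (ku - d / 2) - ((d / 2 : ℝ) : ℂ)
  have hqd : dist q (axis ku) ≤ d := by
    rw [dist_eq_norm]
    refine (Complex.norm_le_abs_re_add_abs_im _).trans ?_
    simp [q, axis_re, axis_im, abs_of_pos (half_pos hd)]
  have hqQ : q ∈ Q := ⟨lt_of_le_of_lt hqd (by linarith),
    by simp [q, axis_re]; linarith,
    by simp [q, axis_im, hd]⟩
  have hqL : q ∈ UL := hr'L (lt_of_le_of_lt hqd (by linarith)) (by simp [q, axis_re, hd])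
  have hsQ : axis (ku - d) ∈ Q := ⟨by
    rw [mem_ball, dist_eq_norm]
    refine lt_of_le_of_lt (Complex.norm_le_abs_re_add_abs_im _) ?_
    simp [axis_re, axis_im, abs_of_pos hd]
    linarith, by simp [axis_re], by simp [axis_im, hd]⟩
  have hsL : axis (ku - d) ∈ UL := by
    show _ ∈ connectedComponentIn Kᶜ zL
    rw [connectedComponentIn_eq hqL]
    exact hpre Q hQc hQK q hqQ hsQ
  have hcL : x c ∈ UL := by
    show _ ∈ connectedComponentIn Kᶜ zL
    rw [connectedComponentIn_eq hsL, hxc]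
    exact hpre _ (isPreconnected_Icc.image axis continuous_axis.continuousOn)
      (disjoint_left.2 fun z ⟨s, hs, e⟩ => e ▸ hnotK s (hcim.1.trans hs.1) (by linarith [hs.2]))
      _ (mem_image_of_mem axis (right_mem_Icc.2 (by linarith [hdr.2.2])))
      (mem_image_of_mem axis (left_mem_Icc.2 (by linarith [hdr.2.2])))
  exact disjoint_left.1 hne hcR hcL

/-- **Crossings are monotone.** -/
theorem im_lt_of_lt (hc : ContinuousOn x (Ici 0)) (hi : InjOn x (Ici 0))
    (hx : CrossesRight x ε) {a b c : ℝ} (ha : a ∈ crossings x ε) (hb : b ∈ crossings x ε)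
    (hcC : c ∈ crossings x ε) (hab : a < b) (hbc : b < c) (h : (x a).im < (x b).im) :
    (x b).im < (x c).im := by
  have hfin : (crossings x ε ∩ Icc a b).Finite := by
    have hsub : Icc a b ⊆ Ici (0 : ℝ) := fun t ht => le_trans ha.1 ht.1
    have hcl : IsClosed (crossings x ε ∩ Icc a b) := by
      have e : crossings x ε ∩ Icc a b =
          Icc a b ∩ x ⁻¹' ({z | z.re = 0} ∩ {z | |z.im| ≤ ε}) := by
        ext t
        exact ⟨fun h => ⟨h.2, h.1.2⟩, fun h => ⟨⟨hsub h.1, h.2⟩, h.1⟩⟩
      rw [e]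
      exact (hc.mono hsub).preimage_isClosed_of_isClosed isClosed_Icc
        ((isClosed_eq continuous_re continuous_const).inter
          (isClosed_le (continuous_im.abs) continuous_const))
    refine (isCompact_Icc.of_isClosed_subset hcl inter_subset_right).finite ?_
    refine isDiscrete_iff_nhdsNE.2 fun t ht => ?_
    rw [inf_principal_eq_bot]
    filter_upwards [(hx t ht.1).filter_mono nhdsWithin_le_nhds, self_mem_nhdsWithin] with s hs hne
    intro hsC
    rcases lt_or_gt_of_ne hne with h | h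
    · exact (hs.1 h).ne hsC.1.2.1
    · exact (hs.2 h).ne' hsC.1.2.1
  set F := hfin.toFinset
  have hbF : b ∈ F := hfin.mem_toFinset.2 ⟨hb, hab.le, le_rfl⟩
  have haF : a ∈ F := hfin.mem_toFinset.2 ⟨ha, le_rfl, hab.le⟩
  -- the first time of a maximal height
  obtain ⟨w, hwF, hw⟩ := F.exists_max_image (fun t => (x t).im) ⟨b, hbF⟩
  obtain ⟨v, hvF', hvmin⟩ := (F.filter fun t => (x t).im = (x w).im).exists_min_image id
    ⟨w, Finset.mem_filter.2 ⟨hwF, rfl⟩⟩
  obtain ⟨hvF, hvw⟩ := Finset.mem_filter.1 hvF'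
  have hbv : (x b).im ≤ (x v).im := hvw ▸ hw b hbF
  obtain ⟨hvC, hvI⟩ := hfin.mem_toFinset.1 hvF
  have hav : a < v := hvI.1.lt_of_ne fun e => by
    subst e
    linarith
  obtain ⟨u, huF', humax⟩ := (F.filter fun t => t < v).exists_max_image id
    ⟨a, Finset.mem_filter.2 ⟨haF, hav⟩⟩
  obtain ⟨huF, huv⟩ := Finset.mem_filter.1 huF'
  obtain ⟨huC, huI⟩ := hfin.mem_toFinset.1 huF
  have hk : (x u).im < (x v).im := (hvw ▸ hw u huF : (x u).im ≤ (x v).im).lt_of_ne fun e =>
    not_le.2 huv (hvmin u (Finset.mem_filter.2 ⟨huF, e.trans hvw⟩))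
  refine hbv.trans_lt (im_lt_of_consecutive hc hi hx huC hvC huv (fun t ht htC => ?_) hk hcC
    (hvI.2.trans_lt hbc))
  exact not_le.2 ht.1 (humax t (Finset.mem_filter.2 ⟨hfin.mem_toFinset.2
    ⟨htC, huI.1.trans ht.1.le, ht.2.le.trans hvI.2⟩, ht.2⟩))

/-- The same downwards. -/
theorem im_gt_of_gt (hc : ContinuousOn x (Ici 0)) (hi : InjOn x (Ici 0))
    (hx : CrossesRight x ε) {a b c : ℝ} (ha : a ∈ crossings x ε) (hb : b ∈ crossings x ε)
    (hcC : c ∈ crossings x ε) (hab : a < b) (hbc : b < c) (h : (x b).im < (x a).im) :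
    (x c).im < (x b).im := by
  set y : ℝ → ℂ := fun t => (starRingEnd ℂ) (x t)
  have hC : crossings y ε = crossings x ε := by
    ext t
    simp [crossings, y]
  have := im_lt_of_lt (x := y) (ε := ε) (continuous_conj.comp_continuousOn hc)
    (fun s hs t ht e => hi hs ht ((starRingEnd ℂ).injective e))
    (fun t ht => by simpa [y] using hx t (hC ▸ ht))
    (hC ▸ ha) (hC ▸ hb) (hC ▸ hcC) hab hbc (by simpa [y] using h)
  simpa [y] using this

end FA.PoincareBendixson
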